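/-
P-CFT / [HASSE], row 947 [HS-B0] (helper89): the decomposition field of an ARBITRARY place `A` of
`ℚ̄` over a prime `q`, by transport of helper81's theory of `localField q` along a conjugation.

* `placeConj   : PlaceConjStatement`
* `decClosed   : DecClosedStatement`
* `decDense    : DecDenseStatement`
* `decHensel   : DecHenselStatement`
-/
import Fermat.Agent.H97.Hasse.Interfaces
import Fermat.Agent.H95.FF.PlaceDense
import Fermat.Agent.H97.Cft.PowFinite
import Fermat.Agent.H81.Local.EFBase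

set_option autoImplicit false

noncomputable section

namespace Fermat.Agent.H89.Hasse

open Fermat.Agent.H97.Hasse Fermat.Agent.H81.Local Fermat.Agent.H78.CFT

open scoped Pointwise NNReal

/-- every place of `ℚ̄` over `q` is conjugate to the standard one -/
theorem dec_exists_conj (q : ℕ) [Fact q.Prime] (A : ValuationSubring Qb)
    (hA : A.LiesOverPrime q) :
    ∃ ρ : Qb ≃ₐ[ℚ] Qb, ∀ x : Qb, x ∈ A ↔ ρ x ∈ padicPlace q := by
  have hq : q.Prime := Fact.out
  have hA₀ : (padicPlace q).LiesOverPrime q := padicPlace_liesOverPrime q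
  have hAA' : ∀ y ∈ (⊥ : IntermediateField ℚ (AlgebraicClosure ℚ)),
      y ∈ A ↔ y ∈ padicPlace q := by
    intro y hy
    obtain ⟨r, rfl⟩ := IntermediateField.mem_bot.1 hy
    have e : algebraMap ℚ (AlgebraicClosure ℚ) r = ((r : ℚ) : AlgebraicClosure ℚ) :=
      (eq_ratCast _ r)
    rw [e, Fermat.Agent.H95.FF.placeDense_ratCast_mem_iff A hq hA,
      Fermat.Agent.H95.FF.placeDense_ratCast_mem_iff _ hq hA₀]
  obtain ⟨ρ, -, hρ⟩ := Fermat.Agent.H53.transitiveStatement ⊥ (padicPlace q) A q hq hA₀ hAA'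
  exact ⟨ρ, hρ⟩

/-- the decomposition group of a conjugate place -/
theorem dec_mem_iff_conj {q : ℕ} [Fact q.Prime] {A : ValuationSubring Qb} {ρ : Qb ≃ₐ[ℚ] Qb}
    (hρ : ∀ x : Qb, x ∈ A ↔ ρ x ∈ padicPlace q) (σ : Qb ≃ₐ[ℚ] Qb) :
    σ ∈ A.decompositionSubgroup ℚ ↔ ρ * σ * ρ⁻¹ ∈ (padicPlace q).decompositionSubgroup ℚ := by
  rw [Fermat.Agent.H95.FF.placeDense_mem_decompositionSubgroup_iff,
    Fermat.Agent.H95.FF.placeDense_mem_decompositionSubgroup_iff]
  constructor
  · intro h x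
    have e1 : (ρ * σ * ρ⁻¹) x = ρ (σ (ρ.symm x)) := rfl
    have e2 : ρ (ρ.symm x) = x := ρ.apply_symm_apply x
    rw [e1, ← hρ, h, hρ, e2]
  · intro h x
    have e1 : ρ (σ x) = (ρ * σ * ρ⁻¹) (ρ x) := by
      show ρ (σ x) = ρ (σ (ρ.symm (ρ x)))
      rw [ρ.symm_apply_apply]
    rw [hρ, e1, h, ← hρ]

theorem dec_mem_decField_iff (A : ValuationSubring Qb) (y : Qb) :
    y ∈ decField A ↔ ∀ σ ∈ A.decompositionSubgroup ℚ, σ y = y :=
  IntermediateField.mem_fixedField_iff _ _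

/-- the decomposition field of a conjugate place -/
theorem dec_mem_decField_iff_conj {q : ℕ} [Fact q.Prime] {A : ValuationSubring Qb}
    {ρ : Qb ≃ₐ[ℚ] Qb} (hρ : ∀ x : Qb, x ∈ A ↔ ρ x ∈ padicPlace q) (y : Qb) :
    y ∈ decField A ↔ ρ y ∈ localField q := by
  rw [dec_mem_decField_iff, mem_localField_iff']
  constructor
  · intro h τ hτ
    have hσ : ρ⁻¹ * τ * ρ ∈ A.decompositionSubgroup ℚ := by
      rw [dec_mem_iff_conj hρ]
      have : ρ * (ρ⁻¹ * τ * ρ) * ρ⁻¹ = τ := by group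
      rw [this]
      exact hτ
    have h1 := h _ hσ
    have h2 : (ρ⁻¹ * τ * ρ) y = ρ.symm (τ (ρ y)) := rfl
    rw [h2] at h1
    have h3 := congrArg ρ h1
    rwa [ρ.apply_symm_apply] at h3
  · intro h σ hσ
    have hτ := (dec_mem_iff_conj hρ σ).1 hσ
    have h1 := h _ hτ
    have h2 : (ρ * σ * ρ⁻¹) (ρ y) = ρ (σ (ρ.symm (ρ y))) := rfl
    rw [h2, ρ.symm_apply_apply] at h1
    exact ρ.injective h1

/-- **[HS-H] PlaceConj.** -/
theorem placeConj : PlaceConjStatement := by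
  intro q _ A hA
  obtain ⟨ρ, hρ⟩ := dec_exists_conj q A hA
  refine ⟨ρ.symm, ?_⟩
  ext y
  rw [dec_mem_decField_iff_conj hρ, IntermediateField.mem_map]
  constructor
  · intro h
    exact ⟨ρ y, h, ρ.symm_apply_apply y⟩
  · rintro ⟨x, hx, rfl⟩
    have : ρ ((ρ.symm : Qb →ₐ[ℚ] Qb) x) = x := ρ.apply_symm_apply x
    rw [this]
    exact hx

/-- **[HS-B0a] DecClosed.** -/
theorem decClosed : DecClosedStatement := by
  intro q hq A hA
  have : Fact q.Prime := ⟨hq⟩
  obtain ⟨ρ, hρ⟩ := dec_exists_conj q A hA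
  ext σ
  rw [IntermediateField.mem_fixingSubgroup_iff]
  constructor
  · intro h
    rw [dec_mem_iff_conj hρ]
    have hτ : ρ * σ * ρ⁻¹ ∈ (localField q).fixingSubgroup := by
      rw [IntermediateField.mem_fixingSubgroup_iff]
      intro x hx
      have hy : ρ.symm x ∈ decField A := by
        rw [dec_mem_decField_iff_conj hρ, ρ.apply_symm_apply]
        exact hx
      have h1 := h _ hy
      show ρ (σ (ρ.symm x)) = x
      rw [h1, ρ.apply_symm_apply]
    rw [fixingSubgroup_localField] at hτ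
    exact hτ
  · intro h y hy
    exact (dec_mem_decField_iff A y).1 hy σ h

/-- **[HS-B0b] DecDense.** -/
theorem decDense : DecDenseStatement := by
  intro q hq A hA y hy n
  have : Fact q.Prime := ⟨hq⟩
  obtain ⟨r, a, ha, hra⟩ := Fermat.Agent.H95.FF.placeDense q A hA y
    ((dec_mem_decField_iff A y).1 hy) n
  refine ⟨r, ?_⟩
  have hq0 : ((q : ℕ) : Qb) ≠ 0 := by exact_mod_cast hq.ne_zero
  rw [hra, mul_div_assoc, mul_comm, div_mul_cancel₀ _ (pow_ne_zero _ hq0)]
  exact ha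

/-- the valuation of a prime number is at least the valuation of `q` -/
theorem dec_qVal_prime_ge (q : ℕ) [Fact q.Prime] (p : ℕ) (hp : p.Prime) :
    (q : ℝ≥0)⁻¹ ≤ qVal q ((p : ℕ) : AlgebraicClosure ℚ) := by
  have hq : q.Prime := Fact.out
  by_cases hpq : p = q
  · rw [hpq, qVal_natCast_self]
  · have h1 : ¬ qVal q (((p : ℤ) : ℤ) : AlgebraicClosure ℚ) < 1 := by
      rw [qVal_intCast_lt_one_iff]
      intro h
      have h2 : q ∣ p := Int.natCast_dvd_natCast.mp h
      exact hpq ((Nat.prime_dvd_prime_iff_eq hq hp).1 h2).symm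
    rw [Int.cast_natCast] at h1
    have h3 : qVal q ((p : ℕ) : AlgebraicClosure ℚ) = 1 :=
      le_antisymm (qVal_natCast_le_one q p) (not_lt.1 h1)
    rw [h3]
    exact (qInv_lt_one q).le

/-- **[HS-B0c] DecHensel.** -/
theorem decHensel : DecHenselStatement := by
  intro p hp q hq A hA K _
  have : Fact q.Prime := ⟨hq⟩
  have hpp : p.Prime := Fact.out
  obtain ⟨ρ, hρ⟩ := dec_exists_conj q A hA
  refine ⟨p + 1, fun u hu hclose => ?_⟩
  have hq0 : ((q : ℕ) : Qb) ≠ 0 := by exact_mod_cast hq.ne_zero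
  -- the conjugate field
  set E : IntermediateField ℚ Qb := (locFieldAt K A).map (ρ : Qb →ₐ[ℚ] Qb) with hE
  have hLE : localField q ≤ E := by
    intro x hx
    rw [hE, IntermediateField.mem_map]
    refine ⟨ρ.symm x, ?_, ρ.apply_symm_apply x⟩
    have : ρ.symm x ∈ decField A := by
      rw [dec_mem_decField_iff_conj hρ, ρ.apply_symm_apply]
      exact hx
    exact (le_sup_right : decField A ≤ K ⊔ decField A) this
  have huE : ρ u ∈ E := by
    rw [hE, IntermediateField.mem_map]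
    exact ⟨u, hu, rfl⟩
  -- the valuation estimate
  have h1 : qVal q (ρ ((u - 1) / (q : Qb) ^ (p + 1))) ≤ 1 := by
    rw [qVal_le_one_iff]
    exact (hρ _).1 hclose
  have hqv : qVal q ((q : ℕ) : Qb) = (q : ℝ≥0)⁻¹ := qVal_natCast_self q
  have hqinv0 : (0 : ℝ≥0) < (q : ℝ≥0)⁻¹ := qInv_pos q
  have h2 : qVal q (ρ u - 1) ≤ ((q : ℝ≥0)⁻¹) ^ (p + 1) := by
    rw [map_div₀, map_pow, map_natCast, map_div₀, map_pow, hqv,
      div_le_one (pow_pos hqinv0 _), map_sub, map_one] at h1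
    exact h1
  have h3 : qVal q (ρ u - 1) < qVal q ((p : ℕ) : Qb) ^ p := by
    refine lt_of_le_of_lt h2 (lt_of_lt_of_le ?_ (pow_le_pow_left₀ hqinv0.le
      (dec_qVal_prime_ge q p hpp) p))
    rw [pow_succ]
    exact mul_lt_of_lt_one_right (pow_pos hqinv0 _) (qInv_lt_one q)
  obtain ⟨b, hbE, hb⟩ := Fermat.Agent.H97.exists_pthRoot_mem hLE hpp.ne_zero huE h3
  rw [hE, IntermediateField.mem_map] at hbE
  obtain ⟨t, ht, rfl⟩ := hbE
  refine ⟨t, ht, ?_⟩
  apply ρ.injective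
  rw [map_pow]
  exact hb

end Fermat.Agent.H89.Hasse

end
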